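/-
S28, package M1 (modular equation), part 1: level-one toolkit around the `j`-function.

* `J τ = E₄ τ ^ 3 / Δ τ`;
* every level-one form of weight `12 m` is `Δ ^ m * P(J)` for a polynomial `P` of degree `≤ m`;
* `J : ℍ → ℂ` is surjective.
-/
import Mathlib
import Fermat.Agent.S23.P8_Conj

set_option autoImplicit false

namespace Fermat.Agent.S28.H23

open UpperHalfPlane ModularForm CongruenceSubgroup Filter EisensteinSeries Polynomial
open scoped MatrixGroups ModularForm Manifold Topology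

local notation "Δ" => ModularForm.discriminant

/-- The `j`-function (normalised as `E₄³ / Δ`, i.e. `j = q⁻¹ + 744 + …`). -/
noncomputable def J (τ : ℍ) : ℂ := E₄ τ ^ 3 / Δ τ

lemma E₄_cube_eq (τ : ℍ) : E₄ τ ^ 3 = Δ τ * J τ := by
  rw [J, mul_div_cancel₀ _ (discriminant_ne_zero τ)]

lemma mdiff_discriminant : MDiff (Δ : ℍ → ℂ) := CuspForm.discriminant.holo'

lemma discriminant_SL_slash (γ : SL(2, ℤ)) : (Δ : ℍ → ℂ) ∣[(12 : ℤ)] γ = Δ :=
  (ModularForm.SL_slash (Δ : ℍ → ℂ) γ).trans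
    (CuspForm.discriminant.slash_action_eq' _ ⟨γ, rfl⟩)

/-- Function-level package: holomorphic, `SL(2, ℤ)`-invariant of weight `k`, bounded at `i∞`. -/
structure LvlOne (k : ℤ) (f : ℍ → ℂ) : Prop where
  inv : ∀ γ : SL(2, ℤ), f ∣[k] γ = f
  holo : MDiff f
  bdd : IsBoundedAtImInfty f

lemma LvlOne.exists_form {k : ℤ} {f : ℍ → ℂ} (h : LvlOne k f) :
    ∃ r : ModularForm 𝒮ℒ k, ⇑r = f :=
  ⟨{ toFun := f
     slash_action_eq' := fun _ ⟨γ, hγ⟩ ↦ hγ ▸ h.inv γ
     holo' := h.holo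
     bdd_at_cusps' := fun {c} hc ↦ by
      rw [Subgroup.IsArithmetic.isCusp_iff_isCusp_SL2Z] at hc
      rw [OnePoint.isBoundedAt_iff_forall_SL2Z hc]
      intro γ _
      rw [h.inv γ]
      exact h.bdd }, rfl⟩

lemma LvlOne.of_form {k : ℤ} (r : ModularForm 𝒮ℒ k) : LvlOne k r where
  inv := fun γ => (ModularForm.SL_slash (r : ℍ → ℂ) γ).trans
    (SlashInvariantFormClass.slash_action_eq r _ ⟨γ, rfl⟩)
  holo := r.holo'
  bdd := ModularFormClass.bdd_at_infty r

lemma lvlOne_discriminant : LvlOne 12 (Δ : ℍ → ℂ) where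
  inv := discriminant_SL_slash
  holo := mdiff_discriminant
  bdd := discriminant_isZeroAtImInfty.isBoundedAtImInfty

/-- A level-one form has a limit at `i∞`. -/
lemma exists_tendsto_levelOne {k : ℤ} (r : ModularForm 𝒮ℒ k) :
    ∃ c : ℂ, Tendsto r atImInfty (𝓝 c) := by
  have hanal := ModularFormClass.analyticAt_cuspFunction_zero r one_pos one_mem_strictPeriods_SL
  refine ⟨cuspFunction 1 r 0, ?_⟩
  exact (hanal.continuousAt.tendsto.comp (qParam_tendsto_atImInfty one_pos)).congr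
    (fun τ ↦ SlashInvariantFormClass.eq_cuspFunction r τ one_mem_strictPeriods_SL one_ne_zero)

lemma isBoundedAtImInfty_of_tendsto {f : ℍ → ℂ} {c : ℂ} (h : Tendsto f atImInfty (𝓝 c)) :
    IsBoundedAtImInfty f :=
  h.isBigO_one ℝ

lemma tendsto_E₄ : Tendsto (E₄ : ℍ → ℂ) atImInfty (𝓝 1) := Fermat.Agent.S23.H21.tendsto_E4

lemma tendsto_discriminant : Tendsto (Δ : ℍ → ℂ) atImInfty (𝓝 0) := discriminant_isZeroAtImInfty

/-- Powers of `E₄` are invariant. -/
lemma E₄_pow_SL_slash (n : ℕ) (γ : SL(2, ℤ)) :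
    ((E₄ : ℍ → ℂ) ^ n) ∣[(4 : ℤ) * n] γ = (E₄ : ℍ → ℂ) ^ n :=
  (ModularForm.SL_slash _ γ).trans
    (((Fermat.Agent.S23.P8.SlInv.of_form (𝒢 := 𝒮ℒ) E₄).pow n) _ ⟨γ, rfl⟩)

/-- A holomorphic `SL(2, ℤ)`-invariant function vanishing at `i∞` is `Δ` times a level-one
form. -/
lemma exists_eq_discriminant_mul {k : ℤ} {u : ℍ → ℂ} (hu : LvlOne k u)
    (h0 : IsZeroAtImInfty u) : ∃ r : ModularForm 𝒮ℒ (k - 12), ∀ τ, u τ = Δ τ * r τ := by
  let f : CuspForm 𝒮ℒ k :=
    { toFun := u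
      slash_action_eq' := fun _ ⟨γ, hγ⟩ ↦ hγ ▸ hu.inv γ
      holo' := hu.holo
      zero_at_cusps' := fun {c} hc ↦ by
        rw [Subgroup.IsArithmetic.isCusp_iff_isCusp_SL2Z] at hc
        rw [OnePoint.isZeroAt_iff_forall_SL2Z hc]
        intro γ _
        rw [hu.inv γ]
        exact h0 }
  refine ⟨CuspForm.discriminantEquiv f, fun τ ↦ ?_⟩
  rw [discriminant_mul_discriminantEquiv_apply]
  rfl

/-- **Structure of level-one forms of weight `12 m`**: they are `Δ ^ m * P(J)`. -/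
theorem exists_poly_of_levelOne : ∀ (m : ℕ) (k : ℤ), k = 12 * (m : ℤ) →
    ∀ R : ModularForm 𝒮ℒ k, ∃ P : ℂ[X], P.natDegree ≤ m ∧ ∀ τ, R τ = Δ τ ^ m * P.eval (J τ) := by
  intro m
  induction m with
  | zero =>
    intro k hk R
    have hk0 : k = 0 := by simpa using hk
    subst hk0
    obtain ⟨c, hc⟩ := ModularFormClass.levelOne_weight_zero_const R
    refine ⟨C c, by simp, fun τ ↦ ?_⟩
    rw [hc]
    simp
  | succ m ih =>
    intro k hk R
    obtain ⟨c₀, hc₀⟩ := exists_tendsto_levelOne R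
    set n : ℕ := 3 * (m + 1) with hn
    set u : ℍ → ℂ := ⇑R - c₀ • (E₄ : ℍ → ℂ) ^ n with hu
    have hkn : k = 4 * (n : ℤ) := by rw [hk, hn]; push_cast; ring
    have huL : LvlOne k u :=
      { inv := fun γ => by
          have h1 : ((E₄ : ℍ → ℂ) ^ n) ∣[k] γ = (E₄ : ℍ → ℂ) ^ n := by
            rw [hkn]; exact E₄_pow_SL_slash n γ
          rw [hu, sub_eq_add_neg, SlashAction.add_slash, SlashAction.neg_slash,
            ModularForm.SL_smul_slash, h1, (LvlOne.of_form R).inv γ]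
        holo := R.holo'.sub ((E₄.holo'.pow n).const_smul c₀)
        bdd := by
          have h1 : IsBoundedAtImInfty ((E₄ : ℍ → ℂ) ^ n) :=
            isBoundedAtImInfty_of_tendsto (tendsto_E₄.pow n)
          have h2 : IsBoundedAtImInfty (c₀ • (E₄ : ℍ → ℂ) ^ n) := by
            have h3 : c₀ • (E₄ : ℍ → ℂ) ^ n = (Function.const ℍ c₀) * (E₄ : ℍ → ℂ) ^ n := by
              ext τ; simp
            rw [h3]
            exact (Filter.const_boundedAtFilter atImInfty c₀).mul h1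
          exact (ModularFormClass.bdd_at_infty R).sub h2 }
    have hu0 : IsZeroAtImInfty u := by
      have h1 : Tendsto (fun τ => R τ - c₀ * E₄ τ ^ n) atImInfty (𝓝 (c₀ - c₀ * 1 ^ n)) :=
        hc₀.sub ((tendsto_E₄.pow n).const_mul c₀)
      rw [one_pow, mul_one, sub_self] at h1
      exact h1.congr fun τ => by simp [hu]
    obtain ⟨r, hr⟩ := exists_eq_discriminant_mul huL hu0
    obtain ⟨P', hP', hrP⟩ := ih (k - 12) (by rw [hk]; push_cast; ring) r
    refine ⟨C c₀ * X ^ (m + 1) + P', ?_, fun τ ↦ ?_⟩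
    · refine (natDegree_add_le _ _).trans (max_le ?_ (hP'.trans (Nat.le_succ m)))
      exact (natDegree_C_mul_le _ _).trans (natDegree_X_pow_le _)
    · have h1 : R τ = u τ + c₀ * E₄ τ ^ n := by simp [hu]
      have h2 : E₄ τ ^ n = Δ τ ^ (m + 1) * J τ ^ (m + 1) := by
        rw [hn, pow_mul, E₄_cube_eq, mul_pow]
      rw [h1, hr τ, hrP τ, h2]
      simp only [eval_add, eval_mul, eval_C, eval_pow, eval_X]
      ring

/-- There is no nonzero level-one form of negative weight. -/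
lemma levelOne_neg_weight_eq_zero {k : ℤ} (hk : k < 0) (r : ModularForm 𝒮ℒ k) : r = 0 :=
  rank_zero_iff_forall_zero.mp (levelOne_neg_weight_rank_zero hk) r

/-- **The `j`-function is surjective.** -/
theorem J_surjective : Function.Surjective J := by
  intro c
  by_contra hne0
  have hne : ∀ τ, J τ ≠ c := fun τ hτ => hne0 ⟨τ, hτ⟩
  set h : ℍ → ℂ := fun τ => E₄ τ ^ 3 - c * Δ τ with hh
  have hne' : ∀ τ, h τ ≠ 0 := by
    intro τ h0
    apply hne τ
    rw [J, div_eq_iff (discriminant_ne_zero τ)]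
    exact sub_eq_zero.mp h0
  have hhol : MDiff h := by
    have h1 : MDiff (fun τ => E₄ τ ^ 3) := E₄.holo'.pow 3
    have h2 : MDiff (fun τ => c * Δ τ) := mdiff_discriminant.const_smul c
    exact h1.sub h2
  have hinv : ∀ (γ : SL(2, ℤ)) (τ : ℍ), h (γ • τ) = h τ *
      (denom (Matrix.SpecialLinearGroup.toGL
        ((Matrix.SpecialLinearGroup.map (Int.castRingHom ℝ)) γ)) τ) ^ (12 : ℤ) := by
    intro γ τ
    set d := denom (Matrix.SpecialLinearGroup.toGL
        ((Matrix.SpecialLinearGroup.map (Int.castRingHom ℝ)) γ)) τ with hd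
    have hd0 : d ≠ 0 := denom_ne_zero _ _
    have h1 := congrFun (discriminant_SL_slash γ) τ
    rw [ModularForm.SL_slash_apply] at h1
    have h2 := congrFun ((LvlOne.of_form E₄).inv γ) τ
    rw [ModularForm.SL_slash_apply] at h2
    have h3 : Δ (γ • τ) = Δ τ * d ^ (12 : ℤ) := by
      rw [← h1, mul_assoc, ← zpow_add₀ hd0]; simp
    have h4 : E₄ (γ • τ) = E₄ τ * d ^ (4 : ℤ) := by
      rw [← h2, mul_assoc, ← zpow_add₀ hd0]; simp
    have h5 : (d ^ (4 : ℤ)) ^ 3 = d ^ (12 : ℤ) := by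
      rw [← zpow_natCast, ← zpow_mul]; norm_num
    simp only [hh, h3, h4, mul_pow, h5]
    ring
  set u : ℍ → ℂ := fun τ => (h τ)⁻¹ with hu
  have huL : LvlOne (-12) u :=
    { inv := fun γ => by
        ext τ
        rw [ModularForm.SL_slash_apply]
        simp only [hu, hinv γ τ, neg_neg]
        have hd0 := denom_ne_zero (Matrix.SpecialLinearGroup.toGL
          ((Matrix.SpecialLinearGroup.map (Int.castRingHom ℝ)) γ)) τ
        field_simp
      holo := hhol.inv hne'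
      bdd := by
        have h1 : Tendsto h atImInfty (𝓝 (1 ^ 3 - c * 0)) :=
          (tendsto_E₄.pow 3).sub (tendsto_discriminant.const_mul c)
        have h2 : Tendsto u atImInfty (𝓝 ((1 ^ 3 - c * 0)⁻¹)) := h1.inv₀ (by norm_num)
        exact isBoundedAtImInfty_of_tendsto h2 }
  obtain ⟨r, hr⟩ := huL.exists_form
  have hr0 := levelOne_neg_weight_eq_zero (by norm_num) r
  have h1 : u UpperHalfPlane.I = 0 := by rw [← hr, hr0]; rfl
  exact inv_ne_zero (hne' UpperHalfPlane.I) h1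

end Fermat.Agent.S28.H23
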