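/-
S28, package M1 (modular equation), part 2: the analytic modular equation.

For a prime `p` there is `Φ ∈ ℂ[Y][X]`, monic of degree `p + 1` in `X`, such that for all `τ ∈ ℍ`
`Φ(X, J τ) = ∏_x (X - J (α_x τ))`, the product being over the `p + 1` Hecke representatives
`α_∞ = (p 0; 0 1)`, `α_j = (1 j; 0 p)`.
-/
import Mathlib
import Fermat.Prelude.Thm_ModularForm_heckeT_slash_eq_self_of_mem_Gamma0
import Fermat.Agent.S28.H23.LevelOneJ

set_option autoImplicit false
set_option linter.unusedSectionVars false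

namespace Fermat.Agent.S28.H23

open UpperHalfPlane ModularForm CongruenceSubgroup Filter EisensteinSeries Polynomial
open scoped MatrixGroups ModularForm Manifold Topology
open P2MW.S_ModularForm_heckeT_slash_eq_self_of_mem_Gamma0.ModularForm.HeckeSlashInvariance

local notation "Δ" => ModularForm.discriminant

variable (p : ℕ) [Fact p.Prime]

lemma card_onePoint : Fintype.card (OnePoint (ZMod p)) = p + 1 := by
  rw [show Fintype.card (OnePoint (ZMod p)) = Fintype.card (Option (ZMod p)) from rfl,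
    Fintype.card_option, ZMod.card]

lemma heckeRep_det_pos (x : OnePoint (ZMod p)) : 0 < ((heckeRep p x).det : ℝ) := by
  induction x using OnePoint.rec with
  | infty => exact det_heckeDiagMatrix_pos p
  | coe j => exact det_heckeMatrix_pos p j.val

lemma heckeRep_one_zero (x : OnePoint (ZMod p)) : (heckeRep p x) 1 0 = 0 := by
  have hp : p ≠ 0 := (Fact.out : p.Prime).ne_zero
  induction x using OnePoint.rec with
  | infty =>
    rw [heckeRep_infty]
    show ((heckeDiagMatrix p : GL (Fin 2) ℝ) : Matrix (Fin 2) (Fin 2) ℝ) 1 0 = 0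
    rw [val_heckeDiagMatrix hp]
    simp
  | coe j =>
    rw [heckeRep_coe]
    show ((heckeMatrix p j.val : GL (Fin 2) ℝ) : Matrix (Fin 2) (Fin 2) ℝ) 1 0 = 0
    rw [val_heckeMatrix hp]
    simp

lemma σ_heckeRep (x : OnePoint (ZMod p)) (c : ℂ) : σ (heckeRep p x) c = c := by
  rw [σ, if_pos (heckeRep_det_pos p x)]
  rfl

/-- The translate of `f` by the Hecke representative `α_x`. -/
noncomputable def tr (k : ℤ) (f : ℍ → ℂ) (x : OnePoint (ZMod p)) : ℍ → ℂ :=
  f ∣[k] heckeRep p x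

variable {p}

lemma tr_slash {k : ℤ} {f : ℍ → ℂ} (hf : ∀ γ : SL(2, ℤ), f ∣[k] γ = f) (γ : SL(2, ℤ))
    (x : OnePoint (ZMod p)) :
    (tr p k f x) ∣[k] γ = tr p k f (redMatrix p γ • x) := by
  have hp1 : ¬ p ∣ 1 := (Fact.out : p.Prime).one_lt.ne' ∘ Nat.dvd_one.mp
  obtain ⟨g', -, hmul⟩ := heckeRep_mul (N := 1) hp1 γ (one_dvd _) x
  have h1 : (tr p k f x) ∣[k] γ = (tr p k f x) ∣[k] (Matrix.SpecialLinearGroup.mapGL ℝ γ) :=
    ModularForm.SL_slash _ γ
  have h2 : f ∣[k] (Matrix.SpecialLinearGroup.mapGL ℝ g') = f :=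
    (ModularForm.SL_slash f g').symm.trans (hf g')
  rw [h1, tr, ← SlashAction.slash_mul, hmul, SlashAction.slash_mul, h2, tr]

lemma tr_apply (k : ℤ) (f : ℍ → ℂ) (x : OnePoint (ZMod p)) (τ : ℍ) :
    tr p k f x τ = f (heckeRep p x • τ) *
      ((((heckeRep p x).det : ℝ) : ℂ) ^ (k - 1) * denom (heckeRep p x) τ ^ (-k)) := by
  rw [tr, ModularForm.slash_apply, σ_heckeRep, abs_of_pos (heckeRep_det_pos p x), mul_assoc]

lemma tr_factor_ne_zero (k : ℤ) (x : OnePoint (ZMod p)) (τ : ℍ) :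
    (((heckeRep p x).det : ℝ) : ℂ) ^ (k - 1) * denom (heckeRep p x) τ ^ (-k) ≠ 0 := by
  refine mul_ne_zero (zpow_ne_zero _ ?_) (zpow_ne_zero _ (denom_ne_zero _ _))
  exact_mod_cast (heckeRep_det_pos p x).ne'

lemma tr_sub (k : ℤ) (f g : ℍ → ℂ) (x : OnePoint (ZMod p)) :
    tr p k (f - g) x = tr p k f x - tr p k g x := by
  rw [tr, tr, tr, sub_eq_add_neg, SlashAction.add_slash, SlashAction.neg_slash, ← sub_eq_add_neg]

lemma tr_smul (k : ℤ) (c : ℂ) (f : ℍ → ℂ) (x : OnePoint (ZMod p)) :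
    tr p k (c • f) x = c • tr p k f x := by
  rw [tr, tr, ModularForm.smul_slash, σ_heckeRep]

lemma LvlOne.tr_mdiff {k : ℤ} {f : ℍ → ℂ} (hf : LvlOne k f) (x : OnePoint (ZMod p)) :
    MDiff (tr p k f x) :=
  MDifferentiable.slash hf.holo k _

lemma LvlOne.tr_bdd {k : ℤ} {f : ℍ → ℂ} (hf : LvlOne k f) (x : OnePoint (ZMod p)) :
    IsBoundedAtImInfty (tr p k f x) :=
  IsBoundedAtImInfty.slash k (heckeRep_one_zero p x) hf.bdd

/-- The product of the `p + 1` translates of a level-one function is a level-one function. -/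
lemma LvlOne.prod_tr {k : ℤ} {f : ℍ → ℂ} (hf : LvlOne k f) :
    LvlOne (k * ((p : ℤ) + 1)) (∏ x : OnePoint (ZMod p), tr p k f x) where
  inv := fun γ => by
    have hcard : (k * ((p : ℤ) + 1)) =
        k * ((Finset.univ : Finset (OnePoint (ZMod p))).card : ℤ) := by
      rw [Finset.card_univ, card_onePoint]; push_cast; ring
    have hdet : |((Matrix.SpecialLinearGroup.mapGL ℝ γ).det : ℝ)| = 1 := by
      simp
    rw [ModularForm.SL_slash, hcard]
    have h := ModularForm.prod_slash (k := k) (g := Matrix.SpecialLinearGroup.mapGL ℝ γ)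
      (f := fun x : OnePoint (ZMod p) => tr p k f x) (s := Finset.univ)
    rw [hdet, one_zpow, one_smul] at h
    refine h.trans ?_
    have h2 : ∀ x : OnePoint (ZMod p),
        (tr p k f x) ∣[k] (Matrix.SpecialLinearGroup.mapGL ℝ γ) =
          tr p k f (redMatrix p γ • x) := fun x =>
      (ModularForm.SL_slash _ γ).symm.trans (tr_slash hf.inv γ x)
    simp only [h2]
    exact Equiv.prod_comp (MulAction.toPerm (redMatrix p γ)) (fun x => tr p k f x)
  holo := MDifferentiable.prod fun x _ => hf.tr_mdiff x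
  bdd := by
    refine Finset.prod_induction _ (fun g : ℍ → ℂ => IsBoundedAtImInfty g) ?_ ?_ ?_
    · intro a b ha hb
      exact ha.mul hb
    · exact Filter.const_boundedAtFilter _ (1 : ℂ)
    · intro x _
      exact hf.tr_bdd x

/-- `c Δ - E₄³` as a level-one function of weight `12`. -/
lemma lvlOne_pencil (c : ℂ) : LvlOne 12 (c • (Δ : ℍ → ℂ) - (E₄ : ℍ → ℂ) ^ 3) where
  inv := fun γ => by
    have h1 : ((E₄ : ℍ → ℂ) ^ 3) ∣[(12 : ℤ)] γ = (E₄ : ℍ → ℂ) ^ 3 := E₄_pow_SL_slash 3 γ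
    rw [sub_eq_add_neg, SlashAction.add_slash, SlashAction.neg_slash, ModularForm.SL_smul_slash,
      h1, discriminant_SL_slash]
  holo := (mdiff_discriminant.const_smul c).sub (E₄.holo'.pow 3)
  bdd := by
    have h1 : Tendsto (fun τ => c * Δ τ - E₄ τ ^ 3) atImInfty (𝓝 (c * 0 - 1 ^ 3)) :=
      (tendsto_discriminant.const_mul c).sub (tendsto_E₄.pow 3)
    exact isBoundedAtImInfty_of_tendsto (h1.congr fun τ => by simp)

/-- The translate of `E₄³` is `J ∘ α_x` times the translate of `Δ`. -/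
lemma tr_E₄_cube (x : OnePoint (ZMod p)) (τ : ℍ) :
    tr p 12 ((E₄ : ℍ → ℂ) ^ 3) x τ = J (heckeRep p x • τ) * tr p 12 (Δ : ℍ → ℂ) x τ := by
  rw [tr_apply, tr_apply, Pi.pow_apply, E₄_cube_eq]
  ring

lemma tr_discriminant_ne_zero (x : OnePoint (ZMod p)) (τ : ℍ) :
    tr p 12 (Δ : ℍ → ℂ) x τ ≠ 0 := by
  rw [tr_apply]
  exact mul_ne_zero (discriminant_ne_zero _) (tr_factor_ne_zero _ _ _)

lemma tr_pencil (c : ℂ) (x : OnePoint (ZMod p)) (τ : ℍ) :
    tr p 12 (c • (Δ : ℍ → ℂ) - (E₄ : ℍ → ℂ) ^ 3) x τ =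
      tr p 12 (Δ : ℍ → ℂ) x τ * (c - J (heckeRep p x • τ)) := by
  rw [tr_sub, tr_smul, Pi.sub_apply, Pi.smul_apply, tr_E₄_cube, smul_eq_mul]
  ring

variable (p)

/-- **The analytic modular equation.** -/
theorem exists_modularPolynomial_analytic :
    ∃ Φ : Polynomial (Polynomial ℂ), Φ.Monic ∧ Φ.natDegree = p + 1 ∧
      ∀ τ : ℍ, Φ.map (evalRingHom (J τ)) =
        ∏ x : OnePoint (ZMod p), (X - C (J (heckeRep p x • τ))) := by
  classical
  -- level-one forms `G_c = ∏_x (c Δ - E₄³)∣α_x = Δ^(p+1) P_c(J)`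
  have hG : ∀ c : ℂ, ∃ P : ℂ[X], ∀ τ : ℍ,
      (∏ x : OnePoint (ZMod p), tr p 12 (c • (Δ : ℍ → ℂ) - (E₄ : ℍ → ℂ) ^ 3) x) τ =
        Δ τ ^ (p + 1) * P.eval (J τ) := by
    intro c
    obtain ⟨R, hR⟩ := ((lvlOne_pencil c).prod_tr (p := p)).exists_form
    obtain ⟨P, -, hP⟩ := exists_poly_of_levelOne (p + 1) _ (by push_cast; ring) R
    exact ⟨P, fun τ => by rw [← hR]; exact hP τ⟩
  -- interpolation nodes
  set s : Finset (Fin (p + 2)) := Finset.univ with hs
  set v : Fin (p + 2) → ℂ := fun i => ((i : ℕ) : ℂ) with hv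
  have hvinj : Set.InjOn v (s : Set (Fin (p + 2))) := by
    intro i _ j _ hij
    have : ((i : ℕ) : ℂ) = ((j : ℕ) : ℂ) := hij
    exact Fin.ext (by exact_mod_cast this)
  choose P hP using fun i : Fin (p + 2) => hG (v i)
  -- the polynomial in `c` for fixed `τ`
  set D : OnePoint (ZMod p) → ℍ → ℂ := fun x => tr p 12 (Δ : ℍ → ℂ) x with hD
  set a : OnePoint (ZMod p) → ℍ → ℂ := fun x τ => J (heckeRep p x • τ) with ha
  set ND : ℍ → ℂ := fun τ => ∏ x : OnePoint (ZMod p), D x τ with hND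
  have hND0 : ∀ τ, ND τ ≠ 0 := fun τ =>
    Finset.prod_ne_zero_iff.mpr fun x _ => tr_discriminant_ne_zero x τ
  set g : ℍ → ℂ[X] := fun τ => C (ND τ) * ∏ x : OnePoint (ZMod p), (X - C (a x τ)) with hg
  have hmonic : ∀ τ, (∏ x : OnePoint (ZMod p), (X - C (a x τ))).Monic := fun τ =>
    monic_prod_X_sub_C _ _
  have hnat : ∀ τ, (∏ x : OnePoint (ZMod p), (X - C (a x τ))).natDegree = p + 1 := by
    intro τ
    rw [natDegree_prod_of_monic _ _ (fun x _ => monic_X_sub_C _)]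
    simp [card_onePoint]
  have hgeval : ∀ (τ : ℍ) (c : ℂ), (g τ).eval c =
      (∏ x : OnePoint (ZMod p), tr p 12 (c • (Δ : ℍ → ℂ) - (E₄ : ℍ → ℂ) ^ 3) x) τ := by
    intro τ c
    simp only [hg, hND, eval_mul, eval_C, eval_prod, eval_sub, eval_X, Finset.prod_apply,
      tr_pencil, ← Finset.prod_mul_distrib]
    rfl
  have hgdeg : ∀ τ, (g τ).degree < (s.card : WithBot ℕ) := by
    intro τ
    have h1 : (g τ).natDegree ≤ p + 1 := by
      refine (natDegree_C_mul_le _ _).trans ?_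
      rw [hnat τ]
    have h2 : s.card = p + 2 := by simp [hs]
    rw [h2]
    exact lt_of_le_of_lt degree_le_natDegree (by exact_mod_cast Nat.lt_succ_of_le h1)
  -- the two-variable polynomial
  set Ψ : Polynomial (Polynomial ℂ) :=
    ∑ i ∈ s, C (P i) * (Lagrange.basis s v i).map C with hΨ
  have hΨmap : ∀ τ : ℍ, C (Δ τ ^ (p + 1)) * Ψ.map (evalRingHom (J τ)) = g τ := by
    intro τ
    have h1 := Lagrange.eq_interpolate (f := g τ) hvinj (hgdeg τ)
    rw [Lagrange.interpolate_apply] at h1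
    rw [h1, hΨ, Polynomial.map_sum, Finset.mul_sum]
    refine Finset.sum_congr rfl fun i _ => ?_
    rw [Polynomial.map_mul, Polynomial.map_C, Polynomial.map_map,
      show (evalRingHom (J τ)).comp (C : ℂ →+* ℂ[X]) = RingHom.id ℂ from by ext; simp,
      Polynomial.map_id, ← mul_assoc, ← C_mul, hgeval τ (v i), hP i τ]
    rfl
  -- the leading coefficient
  set ψ : ℂ[X] := Ψ.coeff (p + 1) with hψ
  have hψeval : ∀ τ : ℍ, Δ τ ^ (p + 1) * ψ.eval (J τ) = ND τ := by
    intro τ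
    have h1 := congrArg (fun q : ℂ[X] => q.coeff (p + 1)) (hΨmap τ)
    have hc : (∏ x : OnePoint (ZMod p), (X - C (a x τ))).coeff (p + 1) = 1 := by
      have := (hmonic τ).coeff_natDegree
      rwa [hnat τ] at this
    simp only [coeff_C_mul, coeff_map, hg] at h1
    rw [hc, mul_one] at h1
    exact h1
  have hψroot : ∀ y : ℂ, ψ.eval y ≠ 0 := by
    intro y h0
    obtain ⟨τ, rfl⟩ := J_surjective y
    exact hND0 τ (by rw [← hψeval τ, h0, mul_zero])
  have hψdeg : ψ.degree = 0 := by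
    by_contra hne
    obtain ⟨y, hy⟩ := IsAlgClosed.exists_root ψ hne
    exact hψroot y hy
  set κ : ℂ := ψ.coeff 0 with hκ
  have hψC : ψ = C κ := eq_C_of_degree_eq_zero hψdeg
  have hκ0 : κ ≠ 0 := by
    intro h0
    have := hψroot 0
    rw [hψC, h0] at this
    simp at this
  have hΨnat : Ψ.natDegree ≤ p + 1 := by
    refine natDegree_sum_le_of_forall_le _ _ fun i hi => ?_
    refine (natDegree_C_mul_le _ _).trans ?_
    refine (natDegree_map_le).trans ?_
    rw [Lagrange.natDegree_basis hvinj hi]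
    simp [hs]
  refine ⟨C (C κ⁻¹) * Ψ, ?_, ?_, ?_⟩
  · -- monic
    have h1 : (C (C κ⁻¹) * Ψ).natDegree ≤ p + 1 := (natDegree_C_mul_le _ _).trans hΨnat
    have h2 : (C (C κ⁻¹) * Ψ).coeff (p + 1) = 1 := by
      rw [coeff_C_mul, ← hψ, hψC, ← C_mul, inv_mul_cancel₀ hκ0, C_1]
    exact monic_of_natDegree_le_of_coeff_eq_one _ h1 h2
  · have h1 : (C (C κ⁻¹) * Ψ).natDegree ≤ p + 1 := (natDegree_C_mul_le _ _).trans hΨnat
    have h2 : (C (C κ⁻¹) * Ψ).coeff (p + 1) = 1 := by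
      rw [coeff_C_mul, ← hψ, hψC, ← C_mul, inv_mul_cancel₀ hκ0, C_1]
    refine le_antisymm h1 (le_natDegree_of_ne_zero ?_)
    rw [h2]
    exact one_ne_zero
  · intro τ
    have h1 := hΨmap τ
    have h2 := hψeval τ
    rw [hψC, eval_C] at h2
    have hΔ : Δ τ ^ (p + 1) ≠ 0 := pow_ne_zero _ (discriminant_ne_zero τ)
    rw [Polynomial.map_mul, Polynomial.map_C, coe_evalRingHom, eval_C]
    have h3 : C (Δ τ ^ (p + 1) * κ) * (C κ⁻¹ * Ψ.map (evalRingHom (J τ))) =
        C (Δ τ ^ (p + 1) * κ) * ∏ x : OnePoint (ZMod p), (X - C (a x τ)) := by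
      have hκκ : (C κ : ℂ[X]) * C κ⁻¹ = 1 := by rw [← C_mul, mul_inv_cancel₀ hκ0, C_1]
      have hg' : g τ = C (Δ τ ^ (p + 1) * κ) * ∏ x : OnePoint (ZMod p), (X - C (a x τ)) := by
        rw [h2]
      calc C (Δ τ ^ (p + 1) * κ) * (C κ⁻¹ * Ψ.map (evalRingHom (J τ)))
          = (C κ * C κ⁻¹) * (C (Δ τ ^ (p + 1)) * Ψ.map (evalRingHom (J τ))) := by
            rw [C_mul]; ring
        _ = g τ := by rw [hκκ, one_mul, h1]
        _ = _ := hg'
    exact mul_left_cancel₀ (C_ne_zero.mpr (mul_ne_zero hΔ hκ0)) h3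

end Fermat.Agent.S28.H23
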