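/-
S28, package M1 (modular equation), part 3: from the analytic modular equation to the formal one
in `ℂ((q))[X]`.
-/
import Mathlib
import Fermat.Agent.S28.Formal
import Fermat.Agent.S28.H22.Translates
import Fermat.Agent.S24.H76.JFun
import Fermat.Agent.S28.H23.ModEqAnalytic

set_option autoImplicit false

noncomputable section

namespace Fermat.Agent.S28.H23

open UpperHalfPlane Function ModularForm Polynomial
open scoped Manifold MatrixGroups ModularForm Real
open Fermat.Agent.S22 Fermat.Agent.S28.H22 Fermat.Agent.S24.H76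
open P2MW.S_ModularForm_heckeT_slash_eq_self_of_mem_Gamma0.ModularForm.HeckeSlashInvariance

local notation "𝕢" => Function.Periodic.qParam

/-- `q ^ m` as a function on the upper half plane. -/
def qpow (m : ℕ) : ℍ → ℂ := fun τ => 𝕢 1 τ ^ m

/-- `F` is `1`-periodic, holomorphic and bounded at `i∞`, with `q`-expansion `c`. -/
def HasQ (F : ℍ → ℂ) (c : PowerSeries ℂ) : Prop :=
  IsNice 1 F ∧ qExpansion (1 : ℝ) F = c

theorem isNice_analyticAt_one {F : ℍ → ℂ} (hF : IsNice 1 F) :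
    AnalyticAt ℂ (cuspFunction (1 : ℝ) F) 0 := by
  simpa using hF.analyticAt

theorem HasQ.add {F G : ℍ → ℂ} {c d : PowerSeries ℂ} (hF : HasQ F c) (hG : HasQ G d) :
    HasQ (F + G) (c + d) :=
  ⟨hF.1.add hG.1, by
    rw [qExpansion_add (isNice_analyticAt_one hF.1) (isNice_analyticAt_one hG.1), hF.2, hG.2]⟩

theorem HasQ.mul {F G : ℍ → ℂ} {c d : PowerSeries ℂ} (hF : HasQ F c) (hG : HasQ G d) :
    HasQ (F * G) (c * d) :=
  ⟨hF.1.mul hG.1, by
    rw [qExpansion_mul (isNice_analyticAt_one hF.1) (isNice_analyticAt_one hG.1), hF.2, hG.2]⟩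

theorem HasQ.const (a : ℂ) : HasQ (fun _ => a) (PowerSeries.C a) := by
  refine ⟨IsNice.const a, ?_⟩
  have h1 : (fun _ : ℍ => a) = a • (1 : ℍ → ℂ) := by
    ext z; simp
  rw [h1, qExpansion_smul (isNice_analyticAt_one IsNice.one), qExpansion_one]
  ext n
  simp [PowerSeries.coeff_C, PowerSeries.coeff_one]

theorem HasQ.of_hasSum {F : ℍ → ℂ} {c : ℕ → ℂ} (hholo : MDiff F)
    (hs : ∀ τ : ℍ, HasSum (fun n : ℕ => c n • 𝕢 1 τ ^ n) (F τ)) :
    HasQ F (PowerSeries.mk c) := by
  have hper : Periodic (F ∘ ofComplex) ((1 : ℝ) : ℂ) := periodic_of_hasSum hs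
  have hbdd : IsBoundedAtImInfty F := isBoundedAtImInfty_of_hasSum_qExpansion one_pos hs
  have hnice : IsNice 1 F := ⟨by simpa using hper, hholo, hbdd⟩
  refine ⟨hnice, ?_⟩
  ext n
  rw [PowerSeries.coeff_mk]
  exact coeff_unique_fun one_pos (isNice_analyticAt_one hnice) hs n

theorem mdifferentiable_qpow (m : ℕ) : MDiff (qpow m) := by
  rw [UpperHalfPlane.mdifferentiable_iff]
  have h1 : DifferentiableOn ℂ (fun z : ℂ => 𝕢 1 z ^ m) {z | 0 < z.im} :=
    (Function.Periodic.differentiable_qParam.differentiableOn).pow m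
  refine h1.congr fun z hz => ?_
  simp only [comp_apply, qpow]
  rw [ofComplex_apply_of_im_pos hz]

theorem hasQ_qpow (m : ℕ) : HasQ (qpow m) (PowerSeries.X ^ m) := by
  have h := HasQ.of_hasSum (F := qpow m) (c := fun n => if n = m then 1 else 0)
    (mdifferentiable_qpow m) (fun τ => by
      have := hasSum_single (f := fun n : ℕ => (if n = m then (1 : ℂ) else 0) • 𝕢 1 (τ : ℂ) ^ n) m
        (fun n hn => by simp [hn])
      simpa [qpow] using this)
  convert h using 1
  ext n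
  simp [PowerSeries.coeff_X_pow]

theorem HasQ.eq_zero {c : PowerSeries ℂ} (h : HasQ 0 c) : c = 0 := by
  rw [← h.2, qExpansion_zero]

theorem qpow_add (m n : ℕ) : qpow (m + n) = qpow m * qpow n := by
  ext τ
  simp [qpow, pow_add]

theorem qpow_zero : qpow 0 = 1 := by
  ext τ
  simp [qpow]

/-- The relation "`f` has Laurent expansion `ℓ` at `i∞`" as a subring of the product. -/
def Rel : Subring ((ℍ → ℂ) × LaurentSeries ℂ) where
  carrier := {x | ∃ (m : ℕ) (c : PowerSeries ℂ), HasQ (qpow m * x.1) c ∧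
      HahnSeries.ofPowerSeries ℤ ℂ c = HahnSeries.single (m : ℤ) 1 * x.2}
  mul_mem' := by
    rintro ⟨f, ℓ⟩ ⟨g, ℓ'⟩ ⟨m, c, hc, hcℓ⟩ ⟨m', c', hc', hcℓ'⟩
    refine ⟨m + m', c * c', ?_, ?_⟩
    · have : qpow (m + m') * (f * g) = (qpow m * f) * (qpow m' * g) := by
        rw [qpow_add]; ring
      show HasQ (qpow (m + m') * (f * g)) (c * c')
      rw [this]
      exact hc.mul hc'
    · show HahnSeries.ofPowerSeries ℤ ℂ (c * c') = HahnSeries.single ((m + m' : ℕ) : ℤ) 1 * (ℓ * ℓ')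
      simp only at hcℓ hcℓ'
      rw [map_mul, hcℓ, hcℓ', Nat.cast_add, ← one_mul (1 : ℂ), ← HahnSeries.single_mul_single,
        one_mul]
      ring
  one_mem' := by
    refine ⟨0, 1, ?_, ?_⟩
    · show HasQ (qpow 0 * 1) 1
      rw [qpow_zero, one_mul]
      have := HasQ.const 1
      rw [map_one] at this
      exact this
    · simp
  add_mem' := by
    rintro ⟨f, ℓ⟩ ⟨g, ℓ'⟩ ⟨m, c, hc, hcℓ⟩ ⟨m', c', hc', hcℓ'⟩
    refine ⟨m + m', PowerSeries.X ^ m' * c + PowerSeries.X ^ m * c', ?_, ?_⟩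
    · have : qpow (m + m') * (f + g) = qpow m' * (qpow m * f) + qpow m * (qpow m' * g) := by
        rw [qpow_add]; ring
      show HasQ (qpow (m + m') * (f + g)) _
      rw [this]
      exact ((hasQ_qpow m').mul hc).add ((hasQ_qpow m).mul hc')
    · show HahnSeries.ofPowerSeries ℤ ℂ (PowerSeries.X ^ m' * c + PowerSeries.X ^ m * c') =
        HahnSeries.single ((m + m' : ℕ) : ℤ) 1 * (ℓ + ℓ')
      simp only at hcℓ hcℓ'
      rw [map_add, map_mul, map_mul, hcℓ, hcℓ', HahnSeries.ofPowerSeries_X_pow,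
        HahnSeries.ofPowerSeries_X_pow, Nat.cast_add, ← one_mul (1 : ℂ),
        ← HahnSeries.single_mul_single, one_mul]
      ring
  zero_mem' := by
    refine ⟨0, 0, ?_, ?_⟩
    · show HasQ (qpow 0 * 0) 0
      rw [mul_zero]
      have := HasQ.const 0
      rw [map_zero] at this
      exact this
    · simp
  neg_mem' := by
    rintro ⟨f, ℓ⟩ ⟨m, c, hc, hcℓ⟩
    refine ⟨m, PowerSeries.C (-1) * c, ?_, ?_⟩
    · have : qpow m * (-f) = (fun _ => (-1 : ℂ)) * (qpow m * f) := by
        ext τ; simp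
      show HasQ (qpow m * (-f)) _
      rw [this]
      exact (HasQ.const (-1)).mul hc
    · show HahnSeries.ofPowerSeries ℤ ℂ (PowerSeries.C (-1) * c) =
        HahnSeries.single (m : ℤ) 1 * (-ℓ)
      simp only at hcℓ
      have e : HahnSeries.ofPowerSeries ℤ ℂ (PowerSeries.C (-1)) = -1 := by
        rw [map_neg, map_one, map_neg, map_one]
      rw [map_mul, hcℓ, e]
      ring

theorem const_mem_Rel (a : ℂ) :
    ((fun _ : ℍ => a), (HahnSeries.C a : LaurentSeries ℂ)) ∈ Rel := by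
  refine ⟨0, PowerSeries.C a, ?_, ?_⟩
  · show HasQ (qpow 0 * fun _ => a) _
    rw [qpow_zero, one_mul]
    exact HasQ.const a
  · simp

theorem eq_zero_of_mem_Rel {ℓ : LaurentSeries ℂ} (h : ((0 : ℍ → ℂ), ℓ) ∈ Rel) : ℓ = 0 := by
  obtain ⟨m, c, hc, hcℓ⟩ := h
  simp only [mul_zero] at hc hcℓ
  rw [hc.eq_zero, map_zero] at hcℓ
  have h2 := congrArg (fun x => HahnSeries.single (-(m : ℤ)) (1 : ℂ) * x) hcℓ
  simp only [mul_zero, ← mul_assoc, HahnSeries.single_mul_single] at h2
  simpa using h2.symm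

/-- If `q(g τ) = u q(τ)^k`, then `τ ↦ J (g τ)` has Laurent expansion `j(u q^k)`. -/
theorem mem_Rel_of_qParam {g : ℍ → ℍ} (u : ℂˣ) {k : ℕ} (hk : k ≠ 0)
    (hg : ∀ τ : ℍ, 𝕢 1 (g τ : ℂ) = (u : ℂ) * 𝕢 1 (τ : ℂ) ^ k)
    (hholo : MDiff (fun τ => qjFun (g τ))) :
    ((fun τ => J (g τ)), jS ℂ u k) ∈ Rel := by
  have hu : (u : ℂ) ≠ 0 := u.ne_zero
  have hkpos : 0 < k := Nat.pos_of_ne_zero hk
  set c : ℕ → ℂ := fun n => if k ∣ n then
    ((u : ℂ))⁻¹ * (u : ℂ) ^ (n / k) * ((ModularCurve.jNum.coeff (n / k) : ℤ) : ℂ) else 0 with hc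
  refine ⟨k, PowerSeries.mk c, ?_, ?_⟩
  · have hfun : qpow k * (fun τ => J (g τ)) = fun τ => (u : ℂ)⁻¹ * qjFun (g τ) := by
      ext τ
      simp only [Pi.mul_apply, qpow, qjFun, hg τ]
      show _ * jFun (g τ) = _
      field_simp
    show HasQ (qpow k * fun τ => J (g τ)) _
    rw [hfun]
    refine HasQ.of_hasSum ?_ fun τ => ?_
    · have : (fun τ => (u : ℂ)⁻¹ * qjFun (g τ)) =
          (fun _ => (u : ℂ)⁻¹) * (fun τ => qjFun (g τ)) := rfl
      rw [this]
      exact mdifferentiable_const.mul hholo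
    · have h1 := (hasSum_qjFun (g τ)).mul_left ((u : ℂ)⁻¹)
      rw [hg τ] at h1
      have hinj : Function.Injective (fun n : ℕ => k * n) := fun a b hab =>
        Nat.eq_of_mul_eq_mul_left hkpos hab
      have hfn : ((fun n : ℕ => c n • 𝕢 1 (τ : ℂ) ^ n) ∘ fun n : ℕ => k * n) =
          fun i : ℕ => (u : ℂ)⁻¹ * (((ModularCurve.jNum.coeff i : ℤ) : ℂ) •
            ((u : ℂ) * 𝕢 1 (τ : ℂ) ^ k) ^ i) := by
        funext n
        simp only [Function.comp_apply, hc, if_pos (dvd_mul_right k n),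
          Nat.mul_div_cancel_left n hkpos, smul_eq_mul]
        rw [mul_pow, ← pow_mul]
        ring
      rw [← hinj.hasSum_iff, hfn]
      · exact h1
      · intro n hn
        have : ¬ k ∣ n := fun ⟨m, hm⟩ => hn ⟨m, hm.symm⟩
        simp [hc, this]
  · ext n
    rw [HahnSeries.coeff_single_mul, one_mul]
    rcases lt_or_ge n 0 with hn | hn
    · rw [ModularCurve.ofPowerSeries_coeff_of_neg _ hn, jS_coeff_of_lt u k hk _ (by omega)]
    · obtain ⟨n', rfl⟩ := Int.eq_ofNat_of_zero_le hn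
      rw [HahnSeries.ofPowerSeries_apply_coeff, PowerSeries.coeff_mk]
      by_cases hd : k ∣ n'
      · obtain ⟨t, rfl⟩ := hd
        simp only [hc, if_pos (dvd_mul_right k t), Nat.mul_div_cancel_left t hkpos]
        rw [show ((k * t : ℕ) : ℤ) - (k : ℤ) = (k : ℤ) * ((t : ℤ) - 1) by push_cast; ring]
        rw [jS, qSub_apply, vq_coeff_mul k hk, qScale_coeff, coeff_jqModC_natCast_sub_one,
          Units.val_zpow_eq_zpow_val, zpow_sub_one₀ hu, zpow_natCast]
        ring
      · simp only [hc, if_neg hd]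
        rw [jS_coeff_of_not_dvd u k hk]
        rintro ⟨t, ht⟩
        apply hd
        have : (n' : ℤ) = k * (t + 1) := by linarith
        exact Int.natCast_dvd_natCast.mp ⟨t + 1, this⟩

theorem qParam_one_nat_mul (n : ℕ) (z : ℂ) : 𝕢 1 ((n : ℂ) * z) = 𝕢 1 z ^ n := by
  unfold Function.Periodic.qParam
  rw [← Complex.exp_nat_mul]
  congr 1
  simp only [Complex.ofReal_one, div_one]
  ring

theorem qParam_one_add_div (b p : ℕ) (hp : p ≠ 0) (z : ℂ) :
    𝕢 1 (((p : ℂ) * z + b) / p) = Complex.exp (2 * π * Complex.I / p) ^ b * 𝕢 1 z := by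
  have hp' : (p : ℂ) ≠ 0 := by exact_mod_cast hp
  unfold Function.Periodic.qParam
  rw [← Complex.exp_nat_mul, ← Complex.exp_add]
  congr 1
  simp only [Complex.ofReal_one, div_one]
  field_simp
  ring

/-- The constants, as a ring homomorphism into the product. -/
def constProd : ℂ →+* (ℍ → ℂ) × LaurentSeries ℂ :=
  (Pi.constRingHom ℍ ℂ).prod (HahnSeries.C : ℂ →+* LaurentSeries ℂ)

theorem constProd_mem (a : ℂ) : constProd a ∈ Rel := const_mem_Rel a

/-- The constants, as a ring homomorphism into `Rel`. -/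
def constRel : ℂ →+* Rel := constProd.codRestrict Rel constProd_mem

/-- First projection `Rel → (ℍ → ℂ)`. -/
def relFst : Rel →+* (ℍ → ℂ) := (RingHom.fst _ _).comp Rel.subtype

/-- Second projection `Rel → ℂ((q))`. -/
def relSnd : Rel →+* LaurentSeries ℂ := (RingHom.snd _ _).comp Rel.subtype

theorem relFst_injective : Function.Injective relFst := by
  rw [injective_iff_map_eq_zero]
  rintro ⟨⟨f, ℓ⟩, h⟩ h0
  have hf : f = 0 := h0
  subst hf
  have := eq_zero_of_mem_Rel h
  subst this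
  rfl

theorem exists_modPolyC (p : ℕ) (hp : p.Prime) :
    ∃ (ζ : ℂˣ) (Φ : Polynomial (Polynomial ℂ)), IsPrimitiveRoot ζ p ∧ Φ.Monic ∧
      Φ.natDegree = p + 1 ∧
      Φ.map (Polynomial.eval₂RingHom (HahnSeries.C : ℂ →+* LaurentSeries ℂ) (jS ℂ 1 p)) =
        (X - C (jS ℂ 1 (p * p))) * ∏ b ∈ Finset.range p, (X - C (jS ℂ (ζ ^ b) 1)) := by
  have : Fact p.Prime := ⟨hp⟩
  have hp0 : p ≠ 0 := hp.ne_zero
  obtain ⟨Φ, hmonic, hdeg, hΦ⟩ := exists_modularPolynomial_analytic p
  set ζ : ℂˣ := Units.mk0 (Complex.exp (2 * π * Complex.I / p)) (Complex.exp_ne_zero _) with hζ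
  refine ⟨ζ, Φ, ?_, hmonic, hdeg, ?_⟩
  · rw [← IsPrimitiveRoot.coe_units_iff]
    exact Complex.isPrimitiveRoot_exp p hp0
  -- the holomorphic maps
  have hD : MDiff (fun τ : ℍ => heckeDiagMatrix p • τ) :=
    mdifferentiable_smul (det_heckeDiagMatrix_pos p)
  have hqD : ∀ τ : ℍ, 𝕢 1 ((heckeDiagMatrix p • τ : ℍ) : ℂ) = 𝕢 1 (τ : ℂ) ^ p := fun τ => by
    rw [coe_heckeDiagMatrix_smul hp0, qParam_one_nat_mul]
  -- `J (p τ) ↔ j(q^p)`
  have ha : ((fun τ : ℍ => J (heckeDiagMatrix p • τ)), jS ℂ 1 p) ∈ Rel :=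
    mem_Rel_of_qParam (g := fun τ => heckeDiagMatrix p • τ) 1 hp0
      (fun τ => by rw [hqD, Units.val_one, one_mul]) (mdifferentiable_qjFun.comp hD)
  -- the roots
  let ℓ : OnePoint (ZMod p) → LaurentSeries ℂ := fun x =>
    Option.elim x (jS ℂ 1 (p * p)) (fun b => jS ℂ (ζ ^ b.val) 1)
  have hr : ∀ x : OnePoint (ZMod p),
      ((fun τ : ℍ => J (heckeRep p x • (heckeDiagMatrix p • τ))), ℓ x) ∈ Rel := by
    intro x
    induction x using OnePoint.rec with
    | infty =>
      exact mem_Rel_of_qParam (g := fun τ => heckeDiagMatrix p • (heckeDiagMatrix p • τ)) 1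
        (mul_ne_zero hp0 hp0) (fun τ => by rw [hqD, hqD, Units.val_one, one_mul, ← pow_mul])
        (mdifferentiable_qjFun.comp (hD.comp hD))
    | coe b =>
      have hM : MDiff (fun τ : ℍ => heckeMatrix p b.val • τ) :=
        mdifferentiable_smul (det_heckeMatrix_pos p b.val)
      exact mem_Rel_of_qParam (g := fun τ => heckeMatrix p b.val • (heckeDiagMatrix p • τ))
        (ζ ^ b.val) one_ne_zero (fun τ => by
          rw [coe_heckeMatrix_smul hp0, coe_heckeDiagMatrix_smul hp0, qParam_one_add_div _ _ hp0,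
            pow_one, Units.val_pow_eq_pow_val, hζ, Units.val_mk0])
        (mdifferentiable_qjFun.comp (hM.comp hD))
  let aR : Rel := ⟨_, ha⟩
  let rR : OnePoint (ZMod p) → Rel := fun x => ⟨_, hr x⟩
  -- the identity in `Rel[X]`
  have key : Φ.map (Polynomial.eval₂RingHom constRel aR) = ∏ x : OnePoint (ZMod p), (X - C (rR x)) := by
    apply Polynomial.map_injective relFst relFst_injective
    ext n τ
    have e1 : ∀ P : Polynomial (ℍ → ℂ), P.coeff n τ =
        (P.map (Pi.evalRingHom (fun _ : ℍ => ℂ) τ)).coeff n := fun P => by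
      rw [Polynomial.coeff_map]; rfl
    rw [e1, e1, Polynomial.map_map, Polynomial.map_map, Polynomial.map_prod]
    have e2 : ((Pi.evalRingHom (fun _ : ℍ => ℂ) τ).comp relFst).comp
        (Polynomial.eval₂RingHom constRel aR) =
        Polynomial.evalRingHom (J (heckeDiagMatrix p • τ)) := by
      apply Polynomial.ringHom_ext
      · intro c
        simp [constRel, constProd, relFst, aR]
      · simp [constRel, constProd, relFst, aR]
    rw [e2, hΦ (heckeDiagMatrix p • τ)]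
    congr 1
    rw [Polynomial.map_prod]
    refine Finset.prod_congr rfl fun x _ => ?_
    simp [relFst, rR]
  have key2 := congrArg (Polynomial.map relSnd) key
  rw [Polynomial.map_map, Polynomial.map_prod] at key2
  have e3 : relSnd.comp (Polynomial.eval₂RingHom constRel aR) =
      Polynomial.eval₂RingHom (HahnSeries.C : ℂ →+* LaurentSeries ℂ) (jS ℂ 1 p) := by
    apply Polynomial.ringHom_ext
    · intro c
      simp [constRel, constProd, relSnd, aR]
    · simp [constRel, constProd, relSnd, aR]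
  rw [e3] at key2
  rw [key2]
  have e4 : ∀ x : OnePoint (ZMod p), (X - C (rR x)).map relSnd = X - C (ℓ x) := fun x => by
    simp [relSnd, rR]
  simp only [e4]
  rw [show (∏ x : OnePoint (ZMod p), (X - C (ℓ x) : Polynomial (LaurentSeries ℂ))) =
    ∏ x : Option (ZMod p), (X - C (ℓ x) : Polynomial (LaurentSeries ℂ)) from rfl,
    Fintype.prod_option]
  congr 1
  refine Finset.prod_nbij' (fun b : ZMod p => b.val) (fun n : ℕ => (n : ZMod p)) ?_ ?_ ?_ ?_ ?_
  · intro b _
    exact Finset.mem_range.mpr (ZMod.val_lt b)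
  · intro n _
    exact Finset.mem_univ _
  · intro b _
    exact ZMod.natCast_zmod_val b
  · intro n hn
    exact ZMod.val_natCast_of_lt (Finset.mem_range.mp hn)
  · intro b _
    rfl

end Fermat.Agent.S28.H23
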