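/-
S28, package M1 (modular equation), FINAL: modular polynomials exist for every prime level.

`exists_modPolyC` (analytic part: the modular equation over `ℂ((q))`, helper23) is fed into
`H26.hasModPolys_of_complex` (integrality and transfer to every domain, helper26).
-/
import Fermat.Agent.S28.H23.ModEqFormal
import Fermat.Agent.S28.H26.Final

set_option autoImplicit false

namespace Fermat.Agent.S28.H23

/-- **M1**: for every prime `p` there is a modular polynomial `Φ_p ∈ ℤ[Y][X]` of level `p`
(`IsModPoly p Φ`: monic of degree `p + 1`, with the factorisation
`Φ(X, j(q^p)) = (X - j(q^{p²})) ∏_{b<p} (X - j(ζ^b q))` over every domain containing a primitive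
`p`-th root of unity `ζ`). -/
theorem hasModPolys : Fermat.Agent.S28.HasModPolys :=
  Fermat.Agent.S28.H26.hasModPolys_of_complex exists_modPolyC

end Fermat.Agent.S28.H23
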